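/-
helper38 (P-CFT row 958 GA-SHAP, part (b)): transport of elementary `2`-cocycles of an open
subgroup `N ≤ G` (trivial coefficients `ZMod p`) to level `2`-cocycles of `G` with values in
`Coind_N (ZMod p)`, with control of ALL local Mackey components:

`exists_global_cocycle` : for an elementary level `2`-cocycle `c` of `N` there is a level
`2`-cocycle `z` of `G` with values in `Coind_N (ZMod p)` such that, for every place `v` and every
`h : G`, the Mackey component at `h` of the class of `res_v z` vanishes iff `c` is locally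
trivial at `(v, h)` (`IsLocTriv₂`).

Tools: Shapiro (`Fermat.Agent.H97.Shap.shapiro`), the Mackey square
(`Fermat.Agent.H97.Shap.mackeySquareU`), helper85's dictionary (`LcDict`).
-/
import Fermat.Agent.H13.Cft.ULang
import Fermat.Agent.H85.Cft.LcShap
import Fermat.Agent.H97.Shap.Main
import Fermat.Agent.H39.Mackey

set_option autoImplicit false
set_option linter.style.haveILetI false
set_option linter.unusedSectionVars false

open CategoryTheory groupCohomology ExtCitation

namespace Fermat.Agent.H38.GaShap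

open Fermat.Agent.H13.Cft Fermat.Agent.H19 Fermat.Agent.H78.CFT Fermat.Agent.H97.Shap
  Fermat.Agent.H85.LcShap

/-! ### The dictionary in degree `2` -/

section dict

variable {p : ℕ} [Fact p.Prime] {D : Type} [Group D] (𝒲 : LevelSys D)

theorem finer_refl : Finer 𝒲 𝒲 := fun N hN => ⟨N, hN, le_rfl⟩

/-- The class of a level `2`-cocycle with trivial coefficients vanishes iff the associated
elementary cochain is the coboundary of a level `1`-cochain. -/
theorem lvlHMk_trivZ_eq_zero_iff (x : lvlCochains 𝒲 (trivZ D p) 2)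
    (hx : lvlD 𝒲 (trivZ D p) 2 x = 0) :
    lvlHMk 𝒲 (trivZ D p) 2 x hx = 0 ↔
      IsLvlCoboundary₂ 𝒲 (fun q : D × D => (x.1 ![q.1, q.2] : ZMod p)) := by
  rw [lvlHMk_succ_eq_zero_iff]
  constructor
  · rintro ⟨y, hy⟩
    refine ⟨fun g => (y.1 (fun _ => g) : ZMod p), lcs_isLvl1_of_mem p (finer_refl 𝒲) y.2,
      fun g h => ?_⟩
    have h1 : ((lvlD 𝒲 (trivZ D p) 1 y).1 ![g, h] : ZMod p) = x.1 ![g, h] := by rw [hy]
    rw [lvlD_coe, lcs_d1_apply] at h1
    exact h1
  · rintro ⟨f, hf, hfc⟩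
    refine ⟨lcsC1 p (finer_refl 𝒲) f hf, ?_⟩
    apply Subtype.ext
    funext g
    have e1 := lcs_d_C1 p (finer_refl 𝒲) f hf g
    have e2 := hfc (g 0) (g 1)
    have e3 := lcs_vec2 g
    show ((lvlD 𝒲 (trivZ D p) 1 (lcsC1 p (finer_refl 𝒲) f hf)).1 g : ZMod p) = (x.1 g : ZMod p)
    rw [e1, e2]
    simp only
    rw [e3]

end dict

/-! ### Shapiro lift with control of the Mackey components -/

section transport

variable {p : ℕ} [Fact p.Prime] {G : Type} [Group G] (𝔄 : ArithDatum (ZMod p) G)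
  (N : Subgroup G) (hU : ∃ N' ∈ 𝔄.lvl.sets, N' ≤ N)

/-- The coefficient module `Coind_N (ZMod p)`. -/
noncomputable abbrev coindZ (p : ℕ) {G : Type} [Group G] (N : Subgroup G) : Rep (ZMod p) G :=
  Rep.coind N.subtype (trivZ N p)

/-- The Mackey component at `(v, h)` of a global class. -/
noncomputable def mackeyComp (v : 𝔄.ι) (h : G) :
    lvlH 𝔄.lvl (coindZ p N) 2 →ₗ[ZMod p]
      lvlH (decLvl 𝔄 N hU v h) (Rep.res (mackeyLoc (𝔄.loc v) N h) (trivZ N p)) 2 :=
  (HomologicalComplex.homologyMap (mackeyMap (𝔄.loc v) N h (𝔄.compat v) hU (trivZ N p)) 2).hom ∘ₗ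
    (HomologicalComplex.homologyMap (lvlRes (𝔄.loc v) (𝔄.compat v) (coindZ p N)) 2).hom

theorem mackeyComp_eq (v : 𝔄.ι) (h : G) (ζ : lvlH 𝔄.lvl (coindZ p N) 2) :
    mackeyComp 𝔄 N hU v h ζ =
      (HomologicalComplex.homologyMap
        (lvlRes (mackeyLoc (𝔄.loc v) N h) (mackeyLoc_compat (𝔄.loc v) N h (𝔄.compat v) hU)
          (trivZ N p)) 2).hom
        ((HomologicalComplex.homologyMap (shapiroMap 𝔄.lvl N hU (trivZ N p)) 2).hom ζ) := by
  have h1 := mackeySquareU.{0} 𝔄.lvl (𝔄.lvlv v) (𝔄.loc v) (𝔄.compat v) N hU h (trivZ N p)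
    (lcs_isSmooth_trivial _) 2
  have h2 := congrArg (fun f => f.hom ζ) h1
  exact h2

/-- **Transport**: an elementary level `2`-cocycle `c` of `N` is the Shapiro image of a global
class `ζ ∈ H²(G, Coind_N (ZMod p))`, and the Mackey component of `ζ` at `(v, h)` vanishes iff
`c` is locally trivial at `(v, h)`. -/
theorem exists_global_class (c : N × N → ZMod p) (hc : IsLvl₂ (𝔄.lvl.restrict N hU) c)
    (hcoc : IsTrivCocycle₂ c) :
    ∃ ζ : lvlH 𝔄.lvl (coindZ p N) 2, ∀ (v : 𝔄.ι) (h : G),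
      mackeyComp 𝔄 N hU v h ζ = 0 ↔ IsLocTriv₂ 𝔄 N hU c v h := by
  have hiso := shapiro.{0} 𝔄.lvl N hU (trivZ N p) (lcs_isSmooth_trivial _) 2
  have hx := lcs_d_C2_eq_zero p (finer_refl (𝔄.lvl.restrict N hU)) c hc hcoc
  have hsurj : Function.Surjective
      (HomologicalComplex.homologyMap (shapiroMap 𝔄.lvl N hU (trivZ N p)) 2).hom :=
    (ModuleCat.epi_iff_surjective _).1 inferInstance
  obtain ⟨ζ, hζ⟩ := hsurj (lvlHMk (𝔄.lvl.restrict N hU) (trivZ N p) 2
    (lcsC2 p (finer_refl (𝔄.lvl.restrict N hU)) c hc) hx)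
  refine ⟨ζ, fun v h => ?_⟩
  rw [mackeyComp_eq, hζ, lvlHMk_naturality]
  exact lvlHMk_trivZ_eq_zero_iff (p := p) (decLvl 𝔄 N hU v h) _ _

end transport

end Fermat.Agent.H38.GaShap
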