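/-
helper38 (P-CFT row 958 GA-SHAP, part (b'), local side):

* `exists_reps` : representatives of the double cosets `U \ G / loc(Γ)`;
* `decomp_h2_span_one` : from `[LC]`, for `𝔄 = arithDatumQ p S hχ`, `N` an `S`-level on which the
  cyclotomic character is trivial: `H²(D_{v,g}, ZMod p)` is spanned by one element, for every
  place `(v, g)`.
-/
import Fermat.Agent.H38.GaShap.Transport

set_option autoImplicit false
set_option linter.style.haveILetI false
set_option linter.unusedSectionVars false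

open CategoryTheory groupCohomology ExtCitation

namespace Fermat.Agent.H38.GaShap

open Fermat.Agent.H13.Cft Fermat.Agent.H19 Fermat.Agent.H78.CFT Fermat.Agent.H97.Shap
  Fermat.Agent.H85.LcShap

/-! ### Representatives of double cosets -/

section reps

variable {G Γ : Type} [Group G] [Group Γ] (loc : Γ →* G) (U : Subgroup G)

/-- The double coset relation `y ∈ U x loc(Γ)`. -/
def dcRel (x y : G) : Prop := ∃ (u : U) (γ : Γ), y = u * x * loc γ

theorem dcRel_refl (x : G) : dcRel loc U x x := ⟨1, 1, by simp⟩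

theorem dcRel_symm {x y : G} (h : dcRel loc U x y) : dcRel loc U y x := by
  obtain ⟨u, γ, rfl⟩ := h
  refine ⟨u⁻¹, γ⁻¹, ?_⟩
  simp only [Subgroup.coe_inv, map_inv]
  group

theorem dcRel_trans {x y z : G} (h : dcRel loc U x y) (h' : dcRel loc U y z) :
    dcRel loc U x z := by
  obtain ⟨u, γ, rfl⟩ := h
  obtain ⟨u', γ', rfl⟩ := h'
  refine ⟨u' * u, γ * γ', ?_⟩
  simp only [Subgroup.coe_mul, map_mul]
  group

/-- The setoid of double cosets. -/
def dcSetoid : Setoid G where
  r := dcRel loc U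
  iseqv := ⟨dcRel_refl loc U, dcRel_symm loc U, dcRel_trans loc U⟩

/-- There is a set of representatives of the double cosets `U \ G / loc(Γ)`. -/
theorem exists_reps :
    ∃ R : Set G, ∀ x : G, ∃! g : G, g ∈ R ∧ ∃ (u : U) (γ : Γ), x = u * g * loc γ := by
  refine ⟨Set.range (fun q : Quotient (dcSetoid loc U) => q.out), fun x => ?_⟩
  refine ⟨(Quotient.mk (dcSetoid loc U) x).out, ⟨⟨_, rfl⟩, ?_⟩, ?_⟩
  · exact Quotient.exact (Quotient.out_eq (Quotient.mk (dcSetoid loc U) x))
  · rintro g ⟨⟨q, rfl⟩, hq⟩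
    have h1 : Quotient.mk (dcSetoid loc U) q.out = Quotient.mk (dcSetoid loc U) x :=
      Quotient.sound hq
    rw [Quotient.out_eq] at h1
    rw [h1]

end reps

/-! ### `[LC]` for the decomposition groups -/

section lc

variable (p : ℕ) [Fact p.Prime] (S : Finset Nat.Primes)
  (hχ : ∃ N ∈ (globalLevelSys S).sets, ∀ s ∈ N, cycloChar p s = 1)

/-- `H²(D_{v,g}, ZMod p)` is spanned by one element. -/
theorem decomp_h2_span_one (hp2 : p ≠ 2) (hLC : LocalCohStatement) (N : Subgroup GQ)
    (hU : ∃ N' ∈ (arithDatumQ p S hχ).lvl.sets, N' ≤ N) (hχN : ∀ s ∈ N, cycloChar p s = 1)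
    (v : (arithDatumQ p S hχ).ι) (g : GQ) :
    ∃ e : lvlH (decLvl (arithDatumQ p S hχ) N hU v g)
        (Rep.res (mackeyLoc ((arithDatumQ p S hχ).loc v) N g) (trivZ N p)) 2,
      ∀ x : lvlH (decLvl (arithDatumQ p S hχ) N hU v g)
        (Rep.res (mackeyLoc ((arithDatumQ p S hχ).loc v) N g) (trivZ N p)) 2,
        ∃ c : ZMod p, x = c • e := by
  have hopen : ∃ N' ∈ (pullbackLevelSys (primeLocalToGlobal v.1)).sets,
      N' ≤ mackeySubgroup (primeLocalToGlobal v.1) N g :=
    mackeySubgroup_open (primeLocalToGlobal v.1) N g ((arithDatumQ p S hχ).compat v) hU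
  have hchi : IsChiOpen (pullbackLevelSys (primeLocalToGlobal v.1))
      ((cycloChar p).comp (primeLocalToGlobal v.1))
      (mackeySubgroup (primeLocalToGlobal v.1) N g) := by
    refine ⟨hopen, fun s hs => ?_⟩
    have h1 : cycloChar p (g * primeLocalToGlobal v.1 s * g⁻¹) = 1 := hχN _ hs
    rw [map_mul, map_mul, map_inv, mul_comm, ← mul_assoc, inv_mul_cancel, one_mul] at h1
    exact h1
  obtain ⟨-, hfin, hrank, -⟩ := hLC p hp2 v.1 _ hchi
  obtain ⟨e2⟩ := lcs_perm_iso (k := ZMod p) (pullbackLevelSys (primeLocalToGlobal v.1))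
    (mackeySubgroup (primeLocalToGlobal v.1) N g) hopen 2
  haveI := hfin
  have hfin' : Module.Finite (ZMod p)
      (lvlH ((pullbackLevelSys (primeLocalToGlobal v.1)).restrict
        (mackeySubgroup (primeLocalToGlobal v.1) N g) hopen)
        (Rep.trivial (ZMod p) (mackeySubgroup (primeLocalToGlobal v.1) N g) (ZMod p)) 2) :=
    Module.Finite.equiv e2.toLinearEquiv
  have hrank' : Module.finrank (ZMod p)
      (lvlH ((pullbackLevelSys (primeLocalToGlobal v.1)).restrict
        (mackeySubgroup (primeLocalToGlobal v.1) N g) hopen)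
        (Rep.trivial (ZMod p) (mackeySubgroup (primeLocalToGlobal v.1) N g) (ZMod p)) 2) ≤ 1 := by
    rw [← e2.toLinearEquiv.finrank_eq]
    exact hrank
  obtain ⟨e, he⟩ := (finrank_le_one_iff (K := ZMod p)).1 hrank'
  exact ⟨e, fun x => by
    obtain ⟨c, hc⟩ := he x
    exact ⟨c, hc.symm⟩⟩

end lc

end Fermat.Agent.H38.GaShap
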