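/-
helper38 (P-CFT row 958 GA-SHAP, part (d)): the assembly
`bdSpanOfPairs : BdPairsUStatement → LocalCohStatement → BdSpanStatement`
from the frame lemmas and the linear algebra of helper24 (`Fermat.Agent.H24.GaShap`),
Shapiro (helper97), Mackey (helper39), the dictionary (helper85) and the naturality of the
boundary classes (helper44).
-/
import Fermat.Agent.H38.GaShap.Local
import Fermat.Agent.H44.SD.BdNat
import Fermat.Agent.H24.GaShap.Shapes

set_option autoImplicit false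
set_option linter.style.haveILetI false
set_option linter.unusedSectionVars false

open CategoryTheory groupCohomology ExtCitation

namespace Fermat.Agent.H38.GaShap

open Fermat.Agent.H13.Cft Fermat.Agent.H19 Fermat.Agent.H78.CFT Fermat.Agent.H97.Shap
  Fermat.Agent.H85.LcShap Fermat.Agent.H53 Fermat.Agent.H39

/-! ### The core: linear algebra on the local classes (general field) -/

section core

variable {k G : Type} [Field k] [Group G] (𝔄 : ArithDatum k G) (v : 𝔄.ι) (M : Rep k G)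

/-- If `H²(Γ_v, M)` is (via `π`) a finite product of spaces spanned by one element, and for any
two factors `g ≠ g'` there is a global class, locally trivial at the places `w ≠ v`, whose
restriction at `v` is supported in `{g, g'}` and nonzero, then the boundary classes at `v` are
spanned by one element. -/
theorem bdSpan_core {R : Type} [Finite R] (V : R → ModuleCat.{0} k)
    (hV : ∀ g, ∃ e : V g, ∀ x : V g, ∃ c : k, x = c • e)
    (π : ∀ g, lvlH (𝔄.lvlv v) (Rep.res (𝔄.loc v) M) 2 ⟶ V g)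
    (hbij : Function.Bijective
      (fun (ξ : lvlH (𝔄.lvlv v) (Rep.res (𝔄.loc v) M) 2) (g : R) => (π g).hom ξ))
    (hpairs : ∀ g g' : R, g ≠ g' → ∃ ζ : lvlH 𝔄.lvl M 2,
      (∀ w, w ≠ v →
        (HomologicalComplex.homologyMap (lvlRes (𝔄.loc w) (𝔄.compat w) M) 2).hom ζ = 0) ∧
      (∀ h, h ≠ g → h ≠ g' → (π h).hom
        ((HomologicalComplex.homologyMap (lvlRes (𝔄.loc v) (𝔄.compat v) M) 2).hom ζ) = 0) ∧
      ¬ ((π g).hom
          ((HomologicalComplex.homologyMap (lvlRes (𝔄.loc v) (𝔄.compat v) M) 2).hom ζ) = 0 ∧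
        (π g').hom
          ((HomologicalComplex.homologyMap (lvlRes (𝔄.loc v) (𝔄.compat v) M) 2).hom ζ) = 0)) :
    ∃ x₀ ∈ bdRange 𝔄 v M, ∀ x ∈ bdRange 𝔄 v M, ∃ c : k, x = c • x₀ := by
  rw [← Fermat.Agent.H24.GaShap.range_bdLin]
  refine Fermat.Agent.H24.GaShap.span_one_of_pairs_bij (fun g => (π g).hom) hbij hV
    (Fermat.Agent.H24.GaShap.bdLin 𝔄 M v) (fun g g' hgg' => ?_)
  obtain ⟨ζ, h1, h2, h3⟩ := hpairs g g' hgg'
  exact ⟨(HomologicalComplex.homologyMap (lvlRes (𝔄.loc v) (𝔄.compat v) M) 2).hom ζ,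
    Fermat.Agent.H24.GaShap.bdLin_res_eq_zero 𝔄 M v ζ h1, h2, h3⟩

end core

/-! ### The coinduced module -/

section coind

variable {p : ℕ} [Fact p.Prime] {G : Type} [Group G] (𝔄 : ArithDatum (ZMod p) G)
  (N : Subgroup G) (hU : ∃ N' ∈ 𝔄.lvl.sets, N' ≤ N)

/-- A local class all of whose Mackey components vanish is zero. -/
theorem class_eq_zero_of_mackey (v : 𝔄.ι)
    (ξ : lvlH (𝔄.lvlv v) (Rep.res (𝔄.loc v) (coindZ p N)) 2)
    (h : ∀ g : G, (HomologicalComplex.homologyMap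
      (mackeyMap (𝔄.loc v) N g (𝔄.compat v) hU (trivZ N p)) 2).hom ξ = 0) : ξ = 0 := by
  obtain ⟨R, hR⟩ := exists_reps (𝔄.loc v) N
  have hm := mackeyStatement shapiro.{0} 𝔄.lvl (𝔄.lvlv v) (𝔄.loc v) (𝔄.compat v) N hU R hR
    (trivZ N p) (lcs_isSmooth_trivial _) 2
  apply hm.1
  funext g
  show (HomologicalComplex.homologyMap
      (mackeyMap (𝔄.loc v) N g.1 (𝔄.compat v) hU (trivZ N p)) 2).hom ξ =
    (HomologicalComplex.homologyMap
      (mackeyMap (𝔄.loc v) N g.1 (𝔄.compat v) hU (trivZ N p)) 2).hom 0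
  rw [h g.1, map_zero]

/-- The statement for the coinduced module, for a general arithmetic datum. -/
theorem bdSpan_coind [N.FiniteIndex] (v : 𝔄.ι)
    (hV : ∀ g : G, ∃ e : lvlH (decLvl 𝔄 N hU v g)
        (Rep.res (mackeyLoc (𝔄.loc v) N g) (trivZ N p)) 2,
      ∀ x : lvlH (decLvl 𝔄 N hU v g) (Rep.res (mackeyLoc (𝔄.loc v) N g) (trivZ N p)) 2,
        ∃ c : ZMod p, x = c • e)
    (hpairs : ∀ g g' : G, ¬ SamePlace 𝔄 N v g g' →
        ∃ c : N × N → ZMod p,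
          IsLvl₂ (𝔄.lvl.restrict N hU) c ∧ IsTrivCocycle₂ c ∧
          (∀ (w : 𝔄.ι) (h : G),
            (w ≠ v ∨ (¬ SamePlace 𝔄 N v g h ∧ ¬ SamePlace 𝔄 N v g' h)) →
            IsLocTriv₂ 𝔄 N hU c w h) ∧
          ¬ (IsLocTriv₂ 𝔄 N hU c v g ∧ IsLocTriv₂ 𝔄 N hU c v g')) :
    ∃ y₀ ∈ bdRange 𝔄 v (coindZ p N),
      ∀ y ∈ bdRange 𝔄 v (coindZ p N), ∃ c : ZMod p, y = c • y₀ := by
  obtain ⟨R, hR⟩ := exists_reps (𝔄.loc v) N
  have hRfin : R.Finite := mackey_finite_reps (𝔄.loc v) N hR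
  haveI : Finite R := hRfin
  have hm := mackeyStatement shapiro.{0} 𝔄.lvl (𝔄.lvlv v) (𝔄.loc v) (𝔄.compat v) N hU R hR
    (trivZ N p) (lcs_isSmooth_trivial _) 2
  refine bdSpan_core 𝔄 v (coindZ p N) (R := R)
    (fun g => lvlH (decLvl 𝔄 N hU v g.1) (Rep.res (mackeyLoc (𝔄.loc v) N g.1) (trivZ N p)) 2)
    (fun g => hV g.1)
    (fun g => HomologicalComplex.homologyMap
      (mackeyMap (𝔄.loc v) N g.1 (𝔄.compat v) hU (trivZ N p)) 2)
    hm (fun g g' hgg' => ?_)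
  have hns : ¬ SamePlace 𝔄 N v g.1 g'.1 :=
    fun h => hgg' (Subtype.ext (mackey_rep_eq _ N hR g.2 g'.2 h))
  obtain ⟨c, hc2, hcoc, hloc, hnot⟩ := hpairs g.1 g'.1 hns
  obtain ⟨ζ, hζ⟩ := exists_global_class 𝔄 N hU c hc2 hcoc
  refine ⟨ζ, fun w hw => ?_, fun h hg hg' => ?_, fun hh => ?_⟩
  · apply class_eq_zero_of_mackey 𝔄 N hU w
    intro h
    exact (hζ w h).2 (hloc w h (Or.inl hw))
  · refine (hζ v h.1).2 (hloc v h.1 (Or.inr ⟨?_, ?_⟩))
    · exact fun hh => hg (Subtype.ext (mackey_rep_eq _ N hR g.2 h.2 hh)).symm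
    · exact fun hh => hg' (Subtype.ext (mackey_rep_eq _ N hR g'.2 h.2 hh)).symm
  · exact hnot ⟨(hζ v g.1).1 hh.1, (hζ v g'.1).1 hh.2⟩

end coind

/-! ### The assembly -/

/-- **[GA-SHAP]** (P-CFT row 958): the frame statement `[GA']` from the elementary realisation
statement `[GA'-U]` and the local statement `[LC]`. -/
theorem bdSpanOfPairs : BdSpanOfPairsStatement := by
  intro hGA hLC p _ hp2 S hpS hχ N₀ hN₀
  obtain ⟨N, hN, hle, hχN, hpairs⟩ := hGA p hp2 S hpS hχ N₀ hN₀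
  refine ⟨N, hN, hle, hχN, ?_⟩
  haveI : N.FiniteIndex := (globalLevelSys S).finiteIndex N hN
  obtain ⟨e⟩ := permCoindU.{0} (k := ZMod p) N
  have hU : ∃ N' ∈ (arithDatumQ p S hχ).lvl.sets, N' ≤ N := ⟨N, hN, le_rfl⟩
  exact Fermat.Agent.H24.GaShap.bdRange_span_of_iso (arithDatumQ p S hχ)
    Fermat.Agent.H44.SD.bdRangeNat.{0} ⟨pPrime p, hpS⟩ e
    (bdSpan_coind (arithDatumQ p S hχ) N hU ⟨pPrime p, hpS⟩
      (fun g => decomp_h2_span_one p S hχ hp2 hLC N hU hχN ⟨pPrime p, hpS⟩ g) hpairs)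

end Fermat.Agent.H38.GaShap
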